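import Fermat.Agent.LT.A2.TopTC
import Fermat.Agent.LT.T1.Closed
import Fermat.Agent.LT.CFT.Closed
import Fermat.Agent.LT.T6.H49.HasseTC
import Fermat.Agent.LT.A2.H431.HasseNormTC
import Fermat.Agent.LT.A2.H38.Plugged4
import Fermat.Agent.LT.A2.H456.TorusClosed
import Fermat.Agent.LT.A2.H467.WeilExTopTC
import Fermat.Agent.LT.A2.H441.Asm
import Fermat.Agent.LT.A2.H709.Psi
import Fermat.Agent.LT.A2.H201.ProdInt
import Fermat.Agent.LT.A2.H570.GoodArith
import Fermat.Agent.LT.A2.H64.Induced
import Fermat.Agent.LT.A2.H54.LocFinSpec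
import Fermat.Agent.LT.A2.H999.LocGood
import Fermat.Agent.LT.A2.H79.GaussSum
import Fermat.Agent.LT.A2.H323.Gauss.Leaf
import Fermat.Agent.LT.A2.H999.LocGoodAsm
import Fermat.Agent.LT.A2.H144.GaussNorm
import Fermat.Agent.LT.A2.H409.FTInv
import Fermat.Agent.LT.A2.H753.LocConst
import Fermat.Agent.LT.A2.H293.Closed
import Fermat.Agent.LT.A2.H247.GaussProd
import Fermat.Agent.LT.A2.H267.AxReg
import Fermat.Agent.LT.A2.H286.AxWeyl
import Fermat.Agent.LT.A2.H64.BorelOp
import Fermat.Agent.LT.A2.H793.Eta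
import Fermat.Agent.LT.A2.H887.NonNormSum
import Fermat.Agent.LT.A2.H709.FtSb
import Fermat.Agent.LT.A2.H833.LeafCov
import Fermat.Agent.LT.A2.H724.LeafHaar
import Fermat.Agent.LT.A2.H258.NormIndex54
import Fermat.Agent.LT.A2.H949.SqOpen
import Fermat.Agent.LT.A2.H83.WeylOp
import Fermat.Agent.LT.A2.H487.RopSb
import Fermat.Agent.LT.A2.H333.AxUnip
import Fermat.Agent.LT.A2.H863.AxDiag
import Fermat.Agent.LT.A2.H227.AxTor
import Fermat.Agent.LT.A2.H798.CxTransport
import Fermat.Agent.LT.A2.H125.CxUnip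
import Fermat.Agent.LT.A2.H61.CpxDiag
import Fermat.Agent.LT.A2.H487.Tor
import Fermat.Agent.LT.A2.H894.WeylC
import Fermat.Agent.LT.A2.H492.CpxReg
import Fermat.Agent.LT.A2.H724.CxDecay
import Fermat.Agent.LT.A2.H955.CpxRightInv
import Fermat.Agent.LT.A2.H820.CharForm
import Fermat.Agent.LT.A2.H312.LocNontriv
import Fermat.Agent.LT.A2.H569.BorelTop
import Fermat.Agent.LT.A2.H276.Weyl
import Fermat.Agent.LT.A2.H151.RightInv
import Fermat.Agent.LT.A2.H637.Orb
import Fermat.Agent.LT.A2.H621.TorusMeasC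
import Fermat.Agent.LT.A2.H96.LocUniq
import Fermat.Agent.LT.A2.H409.Rat
import Fermat.Agent.LT.A2.H915.StdLoc
import Fermat.Agent.LT.A2.H753.RegTop
import Fermat.Agent.LT.A2.H79.Dict
import Fermat.Agent.LT.A2.H922.SuppProd
import Fermat.Agent.LT.A2.H848.ArchBound
import Fermat.Agent.LT.A2.H372.ArchCont
import Fermat.Agent.LT.A2.H965.ContProd
import Fermat.Agent.LT.A2.H131.Lattice
import Fermat.Agent.LT.A2.H905.StdAA
import Fermat.Agent.LT.A2.H98.FinCover
import Fermat.Agent.LT.A2.H426.TorusOpen
import Fermat.Agent.LT.A2.H989.LiftCont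
import Fermat.Agent.LT.A2.H904.LiftBddClosed
import Fermat.Agent.LT.A2.H971.WhitCont
import Fermat.Agent.LT.A2.H593.WhitSum
import Fermat.Agent.LT.A2.H416.MeanTop
import Fermat.Agent.LT.A2.H144.BesselInv
import Fermat.Agent.LT.A2.H949.EigenOde
import Fermat.Agent.LT.A2.H510.ArchInv
import Fermat.Agent.LT.A2.H830.IwasawaGL2
import Fermat.Agent.LT.A2.H142.HeckeTop
import Fermat.Agent.LT.A2.H820.LocalAlg
import Fermat.Agent.LT.A2.H965.Cent
import Fermat.Agent.LT.A2.H792.RecInert
import Fermat.Agent.LT.A2.H254.IntTop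
import Fermat.Agent.LT.A2.H254.Meas
import Fermat.Agent.LT.A2.H124.Pair
import Fermat.Agent.LT.A2.H333.Plus
import Fermat.Agent.LT.A2.H926.Partner
import Fermat.Agent.LT.A2.H488.Form
import Fermat.Agent.LT.A2.H833.TorGroup
import Fermat.Agent.LT.A2.H922.T1Meas
import Fermat.Agent.LT.A2.H826.Integrable
import Fermat.Agent.LT.A2.H314.Decomp
import Fermat.Agent.LT.A2.H322.Supp
import Fermat.Agent.LT.A2.H534.Poisson2
import Fermat.Agent.LT.T3.H127.PerpC
import Fermat.Agent.LT.A2.H83.ThetaInv
import Fermat.Agent.LT.A2.H546.LiftExAt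
import Fermat.Agent.LT.A2.H581.WhitEx
import Fermat.Agent.LT.A2.H112.ExpAt
import Fermat.Agent.LT.A2.H352.Inv
import Fermat.Agent.LT.A2.H63.AdeleQuotClosed
import Fermat.Agent.LT.A2.H409.CuspOfWhit
import Fermat.Agent.LT.A2.H751.MeanOfWhit
import Fermat.Agent.LT.A2.H231.NeZero

/-!
# Row LT, tower A2 -- `Closed.lean` CANDIDATE v10: TOWER A2 CLOSED (helper442; pattern of
row-lead note 15716)

OFF-MAIN.  ONE plain import closure with byte-identical copies of ALL the leaves of tower A2
and of the CLOSED towers T1 (helper54) and CFT (helper53) (sha256 and source commit of every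
vendored file in `coord/LT-A2-closed-helper442.md`).

* `a2_closed442 : WT.A2_556` : the wall leaf of helper556, VERBATIM, UNCONDITIONAL, through the
                      v2 top `a2_top_tc` of the architect (helper950, `TopTC.lean`);
* `Open442`         : the leaves of tower A2 which are still open: NONE (no field);
* `top_of_open442`  : `Open442 → WT.A2_556` (the API of v1 -- v9 of this file).

The inputs of the tower:

| input | owner | theorem |
|---|---|---|
| T1 `T1Out K` (every number field) | tower T1, helper54 | `T1.t1Out` |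
| CFT `HeckeCharC` | tower CFT, helper53 | `CFT.heckeChar` |
| T6.00a `HasseNormTCC` | helper49 (on CFT `HasseNormC`) | `T6.H49.hasseNormTCC49` |

The leaves, discharged here:

| leaf | owner | theorem |
|---|---|---|
| A2.01 `GalSeedC` | trunk helper38 (+ 230, 144, 444, 138, 800, 131, 922, 494, 23, 743, 701) | `galSeedC_closed442` |
| A2.02 `TorusCharC` | helper456 (+ 83, 772, 743) | `H456.torusCharC_closed456` |
| A2.03.1 `WL.WeilExC` (station) | helper467 (cuts, tops v2) | `weilExC_closed442` |
| A2.03.1.1 `WX467.DataC` (station) | helper467 (cut, top), helper441 (`AsmC`) | `dataC_closed442` |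
| A2.03.1.1.01 `WX467.PsiC` | helper709 | `H709.psiC709` |
| A2.03.1.1.02 `WX467.ProdIntC` | helper201 | `H201.prodIntC201` |
| A2.03.1.1.03 `WX467.TorusMeasC` | helper621 on helper751 | `H621.torusMeasC621` |
| A2.03.1.1.04 `WX467.GoodArithC` | helper570 | `H570.goodArithC570` |
| A2.03.1.1.05 `WX467.InducedC` | helper64 | `H64.inducedC64` |
| A2.03.1.1.06 `WX467.LocRepC` (station, ALL 20 leaves) | helper54 (cut, top) | `locRepC_closed442` |
| A2.03.1.1.06.01 `LF54.LeafHaar` | helper724 | `H724.leafHaar724` |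
| A2.03.1.1.06.02 `LF54.LeafCov` | helper833 | `H833.leafCov833` |
| A2.03.1.1.06.03 `LF54.LeafFtSb` | helper709 | `H709.leafFtSb709` |
| A2.03.1.1.06.04 `LF54.LeafInv` | helper409 (+ 496, 361) | `H409.leafInv409` |
| A2.03.1.1.06.05 `LF54.LeafGauss` | helper323 | `H323.leafGauss323` |
| A2.03.1.1.06.06 `LF54.LeafGaussNorm` | helper144 | `H144.leafGaussNorm144` |
| A2.03.1.1.06.07 `LF54.LeafGaussProd` | helper247 | `H247.leafGaussProd247` |
| A2.03.1.1.06.08 `LF54.LeafGaussSum` | helper79 | `H79.leafGaussSum_79` |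
| A2.03.1.1.06.09 `LF54.LeafNormIndex` | helper258 (on 277, 361) | `H258.leafNormIndex258` |
| A2.03.1.1.06.10 `LF54.LeafNonNormSum` | helper887 | `H887.leafNonNormSum887` |
| A2.03.1.1.06.11 `LF54.LeafSqOpen` | helper949 | `H949.leafSqOpen949` |
| A2.03.1.1.06.12 `LF54.LeafEta` | helper793 | `H793.leafEta793` |
| A2.03.1.1.06.13 `LF54.LeafBorelOp` | helper64 | `H64.leafBorelOp64` |
| A2.03.1.1.06.14 `LF54.LeafWeylOp` | helper83 | `H83.leafWeylOp_h83` |
| A2.03.1.1.06.15 `LF54.LeafRopSb` | helper487 | `H487.leafRopSb_h487` |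
| A2.03.1.1.06.16 `LF54.LeafAxUnip` | helper333 | `H333.leafAxUnip333` |
| A2.03.1.1.06.17 `LF54.LeafAxDiag` | helper863 | `H863.leafAxDiag_863` |
| A2.03.1.1.06.18 `LF54.LeafAxWeyl` | helper286 | `H286.leafAxWeyl286` |
| A2.03.1.1.06.19 `LF54.LeafAxTor` | helper227 | `H227.leafAxTor227` |
| A2.03.1.1.06.20 `LF54.LeafAxReg` | helper267 | `LF54.H267.leafAxReg267` |
| A2.03.1.1.07 `WX467.LocUniqC` | helper96 | `H96.locUniqC96` |
| A2.03.1.1.08 `WX467.LocGoodOfRepC` | helper999 (cut, top) | `locGoodOfRepC_closed442` |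
| A2.03.1.1.08.1 `H999.InertEtaC` | helper999 | `H999.inertEtaC999` |
| A2.03.1.1.09 `WX467.LocBadOfRepC` | helper293 (+ 352, 129) | `H293.locBadOfRepC_closed293` |
| A2.03.1.1.10 `WX467.LocCpxC` (station, ALL 10 leaves) | helper798 (cut, top, transport) + 125, 61, 487, 894, 492, 724, 955, 820, 312 | `locCpxC_closed442` |
| A2.03.1.1.11 `WX467.AsmC` | helper441 | `H441.asmC441` |
| A2.03.1.2 `WX467.BorelC` | helper569 | `H569.borelC569` |
| A2.03.1.3 `WX467.RegC` (ALL 9 leaves) | helper753 (cut, top) | `regC_closed442` |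
| A2.03.1.3.0 `H753.DictC` | helper79 | `H79.dictC_79` |
| A2.03.1.3.1 `H753.ContProdC` | helper965 | `H965.contProdC965` |
| A2.03.1.3.2 `H753.SuppProdC` | helper922 | `H922.suppProdC922` |
| A2.03.1.3.3 `H753.LatticeC` | helper131 | `H131.latticeC_h131` |
| A2.03.1.3.4 `H753.StdAAC` | helper905 | `H905.stdAAC905` |
| A2.03.1.3.5 `H753.LocConstC` | helper753 (spare; owner helper600 = 2nd box) | `H753.locConstC753` |
| A2.03.1.3.6 `H753.ArchBoundC` | helper848 | `H848.archBoundC848` |
| A2.03.1.3.7 `H753.ArchContC` | helper372 | `H372.archContC372` |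
| A2.03.1.3.8 `H753.FinCoverC` | helper98 | `H98.finCoverC98` |
| A2.03.1.4 `WX467.WeylC` | helper276 | `H276.weylC276` |
| A2.03.1.5 `WX467.RatC` | helper409 | `H409.ratC409` |
| A2.03.1.6 `WX467.RightInvC` | helper151 | `H151.rightInvC151` |
| A2.03.1.7 `WX467.StdLocC` | helper915 | `H915.stdLocC915` |
| A2.03.1.8b `WX467.OrbTCC` (= `H637.OrbC637`) | helper637 | `H637.orbC637` |
| A2.03.2 `WL.TorusOpenC` | helper426 | `H426.torusOpenC426` |
| A2.03.3 `WL.LiftContC` | helper989 | `H989.liftCont989` |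
| A2.03.4 `WL.LiftBddC` | helper904 (+ 926, 139, 362) | `H904.liftBddC904` |
| A2.03.5 `WL.WhitContC` | helper971 | `H971.whitContC971` |
| A2.03.6b `WL.WhitSumAtC` | helper593 | `H593.whitSumAtC593` |
| A2.03.7 `WL.WhitMeanC` | helper416 (cut, core, top) | `whitMeanC_closed442` |
| A2.03.7.1 `H416.BesselInvC` | helper144 | `H144.besselInvC144` |
| A2.03.7.2 `H416.EigenOdeC` | helper949 | `H949.eigenOdeC949` |
| A2.03.7.3 `H416.ArchInvC` | helper510 | `H510.archInvC_h510` |
| A2.03.7.4 `H416.IwasawaGL2C` | helper830 | `H830.iwasawaGL2C830` |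
| A2.03.8 `WL.WhitHeckeC` | helper142 (top) + all of the above and below | `whitHeckeC_closed442` |
| A2.03.8.3 `H142.CentC` | helper965 | `H965.centC965` |
| A2.03.8.4 `H142.LocalAlgC` | helper820 | `H820.localAlgC820` |
| A2.03.8.5.1 `H254.PairC254` | helper124 | `H124.pairC124` |
| A2.03.8.5.2 `H254.PlusC254` | helper333 | `H333.plusC333` |
| A2.03.8.5.3 `H254.PartnerC254` | helper926 | `H926.partnerC254_926` |
| A2.03.8.5.4 `H254.FormC254` | helper488 | `H488.formC254_488` |
| A2.03.8.5.6 `H254.TorGroupC254` | helper833 | `H833.torGroupC833` |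
| A2.03.8.5.7 `H254.T1MeasC254` | helper922 | `H922.t1MeasC922` |
| A2.03.8.5.8 `H254.DecompC254` | helper314 | `H314.decompC314` |
| A2.03.8.5.9 `H254.SuppC254` | helper322 | `H322.suppC322` |
| A2.03.8.5.10 `H254.IntegrableC254` | helper826 | `H826.integrableC254_826` |
| A2.03.8.5.11 `H254.MeasC254` | helper254 | `H254.measC254` |
| A2.03.8.6 `H142.RecInertC` | helper792 | `H792.recInertC792` |
| A2.04 `Poisson2C` | helper534 (+ helper127 `PerpC`, helper11, helper767, helper848/63) | `poisson2C_closed442` |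
| A2.05b `HasseNormTC` | helper431, helper771 (adapter) on helper49 | `hasseNormTC_closed442` |
| A2.06 `ThetaInvC` | helper83 | `H83.thetaInvC_h83` |
| A2.07b `LiftExAtC` | helper546 | `H546.liftExAtC_h546` |
| A2.08 `WhitExC` | helper581 | `H581.whitExC_h581` |
| A2.09b `ExpAtC` | helper112 | `H112.expAtC_h112` |
| A2.10 `InvC` | helper352 | `H352.invC352` |
| A2.11 `AdeleQuotC` | helper63 | `H63.adeleQuotC_closed63` |
| A2.12 `CuspOfWhitC` | helper409 | `H409.cuspOfWhitC409` |
| A2.13 `MeanOfWhitC` | helper751 | `H751.meanOfWhitC751` |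
| A2.14 `NeZeroOfWhitC` | helper231 | `H231.neZeroOfWhitC231` |

Tops of the cuts used here (all proved by their owners): `WX467.weilEx_of_leaves_tc467` and
`WX467.dataC_of_leaves467` (helper467), `LF54.locRepC_of_leaves54` (helper54),
`CX798.locCpxC_of_leaves798` (helper798), `H999.locGoodOfRepC_of_inertEta999` (helper999),
`H753.regC_of_leaves753` (helper753),
`H416.whitMean_of_leaves416` (helper416), `H142.whitHecke_of_leaves142` (helper142),
`H254.recSplit_of_leaves254` and `H254.int_of_leaves254` (helper254).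

Nothing is assumed; axioms: `propext`, `Classical.choice`, `Quot.sound`.
-/

set_option autoImplicit false

open NumberField

namespace Fermat.Agent.LT.A2.H442

open Fermat.Agent.LT Fermat.Agent.LT.A2 Fermat.Agent.LT.H556

/-- **The leaves of tower A2 which are still open**: none (kept for the API of v1 -- v9). -/
structure Open442 : Prop where

/-! ## The inputs (closed towers) -/

/-- INPUT, tower T1 (helper54), CLOSED. -/
theorem t1_closed442 (K : Type) [Field K] [NumberField K] : T1.T1Out K :=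
  T1.t1Out K

/-- INPUT, tower CFT (helper53), CLOSED. -/
theorem heckeChar_closed442 : CFT.HeckeCharC :=
  CFT.heckeChar

/-- INPUT T6.00a (helper49 on the Hasse norm theorem of tower CFT), CLOSED. -/
theorem hasseTCC_closed442 : T6.HasseNormTCC :=
  T6.H49.hasseNormTCC49

/-! ## Closed leaves -/

/-- A2.04 `Poisson2C`, UNCONDITIONAL: helper534's reduction applied to the closed leaves of the
towers T1 (helper11, helper767, helper848) and T3 (helper127). -/
theorem poisson2C_closed442 : Poisson2C :=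
  H534.poisson2_of534
    (fun K _ _ => T1.H11.locCompC_h11 K)
    (fun K _ _ => H767.adeleLatticeC767 K)
    (fun K _ _ => H63.addFundDomC_closed63 K)
    (fun K _ _ => T3.H127.perpC127 K)

/-- A2.01 `GalSeedC`, UNCONDITIONAL (trunk of helper38 on the closed tower CFT). -/
theorem galSeedC_closed442 : GalSeedC :=
  H38.galSeedC_plugged4 heckeChar_closed442

/-- A2.05b `HasseNormTC`, UNCONDITIONAL. -/
theorem hasseNormTC_closed442 : HasseNormTC :=
  H431.hasseNormTC_of_T6TCC431 hasseTCC_closed442

/-- A2.03.4 `WL.LiftBddC`, UNCONDITIONAL (cut of helper904: 926, 139, 362). -/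
theorem liftBddC_closed442 : WL.LiftBddC :=
  H904.liftBdd_of_gaussSum H139.gaussSumC139

/-- A2.03.1.1.10 `WX467.LocCpxC`, UNCONDITIONAL (cut and top of helper798; leaves: 125, 61,
487, 894, 492, 724, 955, 820, 312, 798). -/
theorem locCpxC_closed442 : WX467.LocCpxC :=
  CX798.locCpxC_of_leaves798 H125.unipC125 CX798.H61.diagC_h61 H487.torC_h487 H894.weylC894
    H492.regC492 H724.decayC724 CX798.H955.rightInvC955 H820.charFormC820 H312.locNontrivC312
    CX798.transportC798

/-- A2.03.7 `WL.WhitMeanC`, UNCONDITIONAL (cut, adelic core and top of helper416; leaves: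
144, 949, 510, 830). -/
theorem whitMeanC_closed442 : WL.WhitMeanC :=
  H416.whitMean_of_leaves416 H144.besselInvC144 H949.eigenOdeC949 H510.archInvC_h510
    H830.iwasawaGL2C830

/-- A2.03.8.5.5 `H254.IntC254`, UNCONDITIONAL (cut of helper254; leaves: 833, 922, 314, 322,
826, 254). -/
theorem intC254_closed442 : H254.IntC254 :=
  H254.int_of_leaves254 H833.torGroupC833 H922.t1MeasC922 H314.decompC314 H322.suppC322
    H826.integrableC254_826 H254.measC254

/-- A2.03.8.5 `H142.RecSplitC`, UNCONDITIONAL (cut of helper254; leaves: 124, 333, 926,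
488). -/
theorem recSplitC_closed442 : H142.RecSplitC :=
  H254.recSplit_of_leaves254 H124.pairC124 H333.plusC333 H926.partnerC254_926
    H488.formC254_488 intC254_closed442

/-- A2.03.8 `WL.WhitHeckeC`, UNCONDITIONAL (top of helper142; `CentC`: helper965, `LocalAlgC`:
helper820, `RecInertC`: helper792). -/
theorem whitHeckeC_closed442 : WL.WhitHeckeC :=
  H142.whitHecke_of_leaves142 H965.centC965 H820.localAlgC820 recSplitC_closed442
    H792.recInertC792

/-! ## The stations -/

/-- The 20 leaves of helper54's cut of the station `LocRepC` (the theorems of their owners, see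
the table in the header). -/
theorem locFinLeaves_closed442 : LF54.Leaves where
  haar := H724.leafHaar724
  cov := H833.leafCov833
  ftSb := H709.leafFtSb709
  inv := H409.leafInv409
  gauss := H323.leafGauss323
  gaussNorm := H144.leafGaussNorm144
  gaussProd := H247.leafGaussProd247
  gaussSum := H79.leafGaussSum_79
  normIndex := H258.leafNormIndex258
  nonNormSum := H887.leafNonNormSum887
  sqOpen := H949.leafSqOpen949
  eta := H793.leafEta793
  borelOp := H64.leafBorelOp64
  weylOp := H83.leafWeylOp_h83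
  ropSb := H487.leafRopSb_h487
  axUnip := H333.leafAxUnip333
  axDiag := H863.leafAxDiag_863
  axWeyl := H286.leafAxWeyl286
  axTor := H227.leafAxTor227
  axReg := LF54.H267.leafAxReg267

/-- A2.03.1.1.06 `WX467.LocRepC`, UNCONDITIONAL (cut and top of helper54, all 20 leaves). -/
theorem locRepC_closed442 : WX467.LocRepC :=
  LF54.locRepC_of_leaves54 locFinLeaves_closed442

/-- A2.03.1.1.08 `WX467.LocGoodOfRepC`, UNCONDITIONAL (cut, top and sub-leaf of helper999). -/
theorem locGoodOfRepC_closed442 : WX467.LocGoodOfRepC :=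
  H999.locGoodOfRepC_of_inertEta999 H999.inertEtaC999

/-- A2.03.1.1 `WX467.DataC`, UNCONDITIONAL (cut and top of helper467; `AsmC`: helper441,
`PsiC`: helper709, `ProdIntC`: helper201, `TorusMeasC`: helper621, `GoodArithC`: helper570,
`InducedC`: helper64, `LocUniqC`: helper96, `LocCpxC`: station of helper798). -/
theorem dataC_closed442 : WX467.DataC :=
  WX467.dataC_of_leaves467 H441.asmC441 H709.psiC709 H201.prodIntC201 H621.torusMeasC621
    H570.goodArithC570 H64.inducedC64 locRepC_closed442 H96.locUniqC96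
    locGoodOfRepC_closed442
    H293.locBadOfRepC_closed293 locCpxC_closed442

/-- A2.03.1.3 `WX467.RegC`, UNCONDITIONAL (cut, top and `LocConstC` of helper753; `DictC`: helper79,
`ContProdC`: helper965, `SuppProdC`: helper922, `LatticeC`: helper131, `StdAAC`: helper905,
`ArchBoundC`: helper848, `ArchContC`: helper372, `FinCoverC`: helper98). -/
theorem regC_closed442 : WX467.RegC :=
  H753.regC_of_leaves753 H79.dictC_79 H965.contProdC965 H922.suppProdC922 H131.latticeC_h131
    H905.stdAAC905 H753.locConstC753 H848.archBoundC848 H372.archContC372 H98.finCoverC98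

/-- A2.03.1 `WL.WeilExC`, UNCONDITIONAL (top v2 of helper467; `BorelC`: helper569,
`WeylC`: helper276, `RatC`: helper409, `RightInvC`: helper151, `StdLocC`: helper915,
`OrbTCC`: helper637). -/
theorem weilExC_closed442 : WL.WeilExC :=
  WX467.weilEx_of_leaves_tc467 (fun K _ _ _ => t1_closed442 K) poisson2C_closed442
    dataC_closed442 H569.borelC569 regC_closed442 H276.weylC276 H409.ratC409
    H151.rightInvC151 H915.stdLocC915 H637.orbC637

/-- **THE TOWER A2, CLOSED**: the wall leaf `A2_556` of helper556, VERBATIM, UNCONDITIONAL.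
(A2.03 `WeilLocalC` is not a field of the v2 top: its eight parts enter `a2_top_tc`
directly.) -/
theorem a2_closed442 : WT.A2_556 :=
  a2_top_tc (fun K _ _ _ => t1_closed442 K) galSeedC_closed442 H456.torusCharC_closed456
    weilExC_closed442 H426.torusOpenC426 H989.liftCont989 liftBddC_closed442
    H971.whitContC971 H593.whitSumAtC593 whitMeanC_closed442 whitHeckeC_closed442
    poisson2C_closed442 hasseNormTC_closed442 H83.thetaInvC_h83
    H546.liftExAtC_h546 H581.whitExC_h581 H112.expAtC_h112 H352.invC352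
    H63.adeleQuotC_closed63 H409.cuspOfWhitC409 H751.meanOfWhitC751 H231.neZeroOfWhitC231

/-- Nothing is open. -/
theorem open_closed442 : Open442 := ⟨⟩

/-- The API of v1 -- v9 of this file. -/
theorem top_of_open442 (_ : Open442) : WT.A2_556 :=
  a2_closed442

end Fermat.Agent.LT.A2.H442
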